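import Fermat.Agent.S30.GeoDefs
import Fermat.Agent.S30.H1300.OpenStab
import Fermat.Agent.S30.GalHecke9234

/-!
# GALREP review (helper4780, slot 9): the leaves HK4 and HK3 of `GeoTree.lean`
(BOARD of helper100), with EXACTLY the frozen types, from reported-done files:

* HK4 `openStabilizers`     <= `Fermat.Agent.S30.H1300.JZero_exists_fixing`       (helper1300)
* HK3 `galoisHeckeCommute`  <= `Fermat.Agent.S30.GalHecke9234.heckeOperatorBar_smul` (helper9234)
-/

set_option autoImplicit false

namespace Fermat.Agent.S30.Rev4780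

/-- **HK4**, exact leaf of `GeoTree.lean`. -/
theorem openStabilizers (N : ℕ) [NeZero N] : OpenStabilizers N :=
  fun x => Fermat.Agent.S30.H1300.JZero_exists_fixing N x

/-- **HK3**, exact leaf of `GeoTree.lean` (holds for every prime `ℓ`; the hypothesis
`ℓ ∤ N p` is not used). -/
theorem galoisHeckeCommute (N p : ℕ) [NeZero N] : GaloisHeckeCommute N p :=
  fun ℓ _ σ x => Fermat.Agent.S30.GalHecke9234.heckeOperatorBar_smul N ℓ σ x

end Fermat.Agent.S30.Rev4780
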